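/-
Row 38 (target S44), block D = (INT) (sub-architect: helper62): the JUNCTION statements inside
block D and the ASSEMBLY of `SpJD` from them.  Blueprint: NOTES/blueprint-row38-D.md, "WIRING v1".

* `SpJDAux`     : J-D at an AUXILIARY level (`4 ∣ D.R`), for EVERY `p`-torsion class with
                  `spKumStab` and `spUnip` (no `p`-newness is needed in block D);
* `SpDModWild`  : the WILD case at an auxiliary level (a `PeuSetting`, `y` fixed by `peuStab`):
                  SOME Kummer generator of `y` satisfies (INT);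
* `SpDModTame`  : the TAME case at an auxiliary level (`y` fixed by the inertia elements fixing
                  `ζ_p`): SOME Kummer generator of `y` satisfies (INT);
* `SpDGenIndep` : (INT) does not depend on the Kummer generator;
* `SpDPull`     : `SpJDAux → SpJD` (pull-back to the level `4 · D.R`, descent of (INT)).

`spJDAux_of`, `spJD_of` : the assembly (the dichotomy tame / wild is `R38T.peu_dichot_setting`).
-/
import Mathlib
import Fermat.Agent.R38.Spine
import Fermat.Agent.R38.T.Dichot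

set_option autoImplicit false
set_option linter.style.haveILetI false
set_option linter.unusedSectionVars false
set_option linter.unusedVariables false
set_option synthInstance.maxHeartbeats 400000
set_option maxHeartbeats 1000000

noncomputable section

namespace Fermat.Agent.R38

open ModularCurve AlgebraicCurve Fermat.Agent.F3 Fermat.Agent.F3G Fermat.Agent.F3I2
  Fermat.Agent.GaussInt Fermat.Agent.AtkinLehner Fermat.Agent.Deuring Fermat.Agent.RR
  Fermat.Agent.BadRed Fermat.Agent.EKp Fermat.Agent.FFL Fermat.Agent.FFL.FB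

local notation "Qb" => AlgebraicClosure ℚ
local notation "GQ" => (AlgebraicClosure ℚ ≃ₐ[ℚ] AlgebraicClosure ℚ)

/-- **J-D at an auxiliary level** (`4 ∣ D.R`), for every `p`-torsion class. -/
def SpJDAux : Prop :=
  ∀ (D : ALData) [NeZero D.Q] [NeZero D.R] [NeZero (D.Q * D.R)]
    (A : ValuationSubring Qb) (hq : D.Q.Prime) (hA : A.LiesOverPrime D.Q) (hqR : ¬ D.Q ∣ D.R)
    [Fact D.Q.Prime] [CharP (IsLocalRing.ResidueField A) D.Q]
    [PerfectRing (IsLocalRing.ResidueField A) D.Q],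
    5 ≤ D.Q → 4 ∣ D.R →
    ∀ (y : JZero (D.Q * D.R)), D.Q • y = 0 → spKumStab D.Q A y → spUnip D.Q A y →
      ∀ (E : Divisor.degZero (K := Qb) (F := FBar (D.Q * D.R))) (g : FBar (D.Q * D.R)),
        spIsKumGen D.Q y E g → spSlopeInt D A hq hA hqR g

/-- **MOD-WILD**: the wild case at an auxiliary level. -/
def SpDModWild : Prop :=
  ∀ (D : ALData) [NeZero D.Q] [NeZero D.R] [NeZero (D.Q * D.R)]
    (A : ValuationSubring Qb) (hq : D.Q.Prime) (hA : A.LiesOverPrime D.Q) (hqR : ¬ D.Q ∣ D.R)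
    [Fact D.Q.Prime] [CharP (IsLocalRing.ResidueField A) D.Q]
    [PerfectRing (IsLocalRing.ResidueField A) D.Q],
    5 ≤ D.Q → 4 ∣ D.R →
    ∀ (ζ α z : Qb), PeuSetting D.Q A ζ α z →
    ∀ (y : JZero (D.Q * D.R)), D.Q • y = 0 → (∀ σ ∈ peuStab A ζ α, σ • y = y) →
      spUnip D.Q A y →
      ∃ (E : Divisor.degZero (K := Qb) (F := FBar (D.Q * D.R))) (g : FBar (D.Q * D.R)),
        spIsKumGen D.Q y E g ∧ spSlopeInt D A hq hA hqR g

/-- **MOD-TAME**: the tame case at an auxiliary level. -/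
def SpDModTame : Prop :=
  ∀ (D : ALData) [NeZero D.Q] [NeZero D.R] [NeZero (D.Q * D.R)]
    (A : ValuationSubring Qb) (hq : D.Q.Prime) (hA : A.LiesOverPrime D.Q) (hqR : ¬ D.Q ∣ D.R)
    [Fact D.Q.Prime] [CharP (IsLocalRing.ResidueField A) D.Q]
    [PerfectRing (IsLocalRing.ResidueField A) D.Q],
    5 ≤ D.Q → 4 ∣ D.R →
    ∀ (ζ : Qb), IsPrimitiveRoot ζ D.Q →
    ∀ (y : JZero (D.Q * D.R)), D.Q • y = 0 →
      (∀ σ ∈ A.inertiaSubgroupIn ℚ, σ ζ = ζ → σ • y = y) →
      ∃ (E : Divisor.degZero (K := Qb) (F := FBar (D.Q * D.R))) (g : FBar (D.Q * D.R)),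
        spIsKumGen D.Q y E g ∧ spSlopeInt D A hq hA hqR g

/-- **GEN-INDEP**: (INT) does not depend on the Kummer generator. -/
def SpDGenIndep : Prop :=
  ∀ (D : ALData) [NeZero D.Q] [NeZero D.R] [NeZero (D.Q * D.R)]
    (A : ValuationSubring Qb) (hq : D.Q.Prime) (hA : A.LiesOverPrime D.Q) (hqR : ¬ D.Q ∣ D.R)
    [Fact D.Q.Prime] [CharP (IsLocalRing.ResidueField A) D.Q]
    [PerfectRing (IsLocalRing.ResidueField A) D.Q]
    (y : JZero (D.Q * D.R))
    (E E' : Divisor.degZero (K := Qb) (F := FBar (D.Q * D.R))) (g g' : FBar (D.Q * D.R)),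
    spIsKumGen D.Q y E g → spIsKumGen D.Q y E' g' →
      spSlopeInt D A hq hA hqR g → spSlopeInt D A hq hA hqR g'

/-- **PULL**: J-D at the auxiliary levels implies J-D. -/
def SpDPull : Prop := SpJDAux → SpJD

/-- the assembly at an auxiliary level: the dichotomy tame / wild. -/
theorem spJDAux_of (hW : SpDModWild) (hT : SpDModTame) (hG : SpDGenIndep) : SpJDAux := by
  intro D _ _ _ A hq hA hqR _ _ _ h5 h4 y hpy hKS hU E g hKG
  obtain ⟨a, hau, ha1, hfix, hK⟩ := hKS
  have hp2 : D.Q ≠ 2 := by omega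
  obtain ⟨ζ, hζ⟩ : ∃ ζ : Qb, IsPrimitiveRoot ζ D.Q :=
    HasEnoughRootsOfUnity.exists_primitiveRoot Qb D.Q
  rcases Fermat.Agent.R38T.peu_dichot_setting hq hp2 hA ha1 hfix with
    ⟨α₀, hα₀, hα₀fix⟩ | ⟨z, hz⟩
  · -- tame
    have hfixy : ∀ σ ∈ A.inertiaSubgroupIn ℚ, σ ζ = ζ → σ • y = y :=
      fun σ hσ hσζ => hK α₀ ζ hα₀ hζ σ hσ hσζ (hα₀fix σ hσ)
    obtain ⟨E', g', hK', hS'⟩ := hT D A hq hA hqR h5 h4 ζ hζ y hpy hfixy
    exact hG D A hq hA hqR y E' E g' g hK' hKG hS'
  · -- wild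
    obtain ⟨α, hα⟩ : ∃ α : Qb, α ^ D.Q = a :=
      IsAlgClosed.exists_pow_nat_eq a hq.pos
    have S := hz ζ α hζ hα
    have hfixy : ∀ σ ∈ peuStab A ζ α, σ • y = y := by
      intro σ hσ
      obtain ⟨h1, h2, h3⟩ := mem_peuStab.1 hσ
      exact hK α ζ hα hζ σ h1 h2 h3
    obtain ⟨E', g', hK', hS'⟩ := hW D A hq hA hqR h5 h4 ζ α z S y hpy hfixy hU
    exact hG D A hq hA hqR y E' E g' g hK' hKG hS'

/-- **the assembly of J-D**. -/
theorem spJD_of (hW : SpDModWild) (hT : SpDModTame) (hG : SpDGenIndep) (hP : SpDPull) : SpJD :=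
  hP (spJDAux_of hW hT hG)

end Fermat.Agent.R38
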