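/-
Row 38, block D (INT), seat GEN-INDEP (helper21): the junction `SpDGenIndep` of `R38/D/Defs.lean`.
-/
import Mathlib
import Fermat.Agent.R38.D.Defs
import Fermat.Agent.R38.D.GenIndep

set_option autoImplicit false

namespace Fermat.Agent.R38

/-- **GEN-INDEP**: (INT) does not depend on the Kummer generator. -/
theorem spDGenIndep : SpDGenIndep := genIndep_all

end Fermat.Agent.R38
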