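/-
Row 38 (target S44), block D (INT), modular wiring, seat MOD-GRP (helper69; sub-architect helper62).

THE GROUPS of the modular instance of ABS-TAME / ABS-WILD.  `A` a place of `ℚ̄` over `p`,
`ζ` a primitive `p`-th root of unity, `α ^ p = a` (`a` the unit of `spKumStab`):

* `dGrp N Γ`   : the image of a subgroup `Γ ≤ G_ℚ` in `SemilinearAut ℚ̄ F_N` (arithmetic action);
                 as a set it is `PeuD.gauH N Γ` (`coe_dGrp`);
* `dH N A ζ α` : the image of `peuStab A ζ α = {σ ∈ I_A | σ ζ = ζ, σ α = α}`  (`= Gal(K̄ / M)`);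
* `dH1 N A ζ`  : the image of `stabI A ζ = {σ ∈ I_A | σ ζ = ζ}`               (`= Gal(K̄ / K₁)`);
* `dGrp_inertial`, `dAut_inertial` : images of inertia elements are inertial for the modular seed;
* `dH_conj`    : `s₀ ∈ stabI A ζ`, `s₀ α = ζ α` ⟹ `s⁻¹ t s ∈ dH` for `t ∈ dH`, `s = image of s₀`
                 (the hypothesis `hsH` of `PeuD.exists_datM`);
* `dGrp_smul_jZero`, `dGrp_smul_fun`, `dGrp_baseAut` : fixed points on `J₀(N)(ℚ̄) = Pic⁰(F_N)`,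
                 on `F_N` and on `ℚ̄` from the fixed points under `Γ`;
* `dGrp_cuspPlace` : the cusp `∞` is fixed.
-/
import Mathlib
import Fermat.Agent.Lib.BadRed.PeuD.ModU
import Fermat.Agent.Lib.BadRed.PeuD.GaussWire
import Fermat.Agent.Lib.FFL.FB.PeuMono

set_option autoImplicit false
set_option linter.style.haveILetI false
set_option linter.unusedSectionVars false
set_option linter.unusedVariables false
set_option synthInstance.maxHeartbeats 400000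

noncomputable section

namespace Fermat.Agent.R38

open ModularCurve AlgebraicCurve Fermat.Agent.F3 Fermat.Agent.F3G
  Fermat.Agent.GaussInt Fermat.Agent.AtkinLehner Fermat.Agent.Deuring Fermat.Agent.RR
  Fermat.Agent.BadRed Fermat.Agent.EKp Fermat.Agent.PeuD Fermat.Agent.FFL.FB

local notation "Qb" => AlgebraicClosure ℚ
local notation "GQ" => (AlgebraicClosure ℚ ≃ₐ[ℚ] AlgebraicClosure ℚ)

attribute [local instance] Fermat.Agent.BadRed.fwFintype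

/-! ### the image of a subgroup of `G_ℚ` -/

section Grp

variable (N : ℕ)

/-- the image of `σ ∈ G_ℚ` in the semilinear automorphisms of `F_N`. -/
abbrev dAut (σ : GQ) : SemilinearAut Qb (modularFunctionFieldBar N) :=
  arithmeticGalois (modularFunctionFieldFull N) σ

/-- the image of a subgroup of `G_ℚ` in the semilinear automorphisms of `F_N`. -/
def dGrp (Γ : Subgroup GQ) : Subgroup (SemilinearAut Qb (modularFunctionFieldBar N)) :=
  Γ.map (arithmeticGalois (modularFunctionFieldFull N))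

variable {N}

theorem mem_dGrp {Γ : Subgroup GQ} {t : SemilinearAut Qb (modularFunctionFieldBar N)} :
    t ∈ dGrp N Γ ↔ ∃ σ ∈ Γ, dAut N σ = t := Subgroup.mem_map

theorem dAut_mem_dGrp {Γ : Subgroup GQ} {σ : GQ} (hσ : σ ∈ Γ) : dAut N σ ∈ dGrp N Γ :=
  Subgroup.mem_map_of_mem _ hσ

/-- as a set, `dGrp N Γ` is `gauH N Γ`. -/
theorem coe_dGrp (Γ : Subgroup GQ) :
    ((dGrp N Γ : Subgroup (SemilinearAut Qb (modularFunctionFieldBar N))) :
      Set (SemilinearAut Qb (modularFunctionFieldBar N))) = gauH N (Γ : Set GQ) :=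
  Subgroup.coe_map _ _

theorem mem_gauH_iff_mem_dGrp {Γ : Subgroup GQ}
    {t : SemilinearAut Qb (modularFunctionFieldBar N)} :
    t ∈ gauH N (Γ : Set GQ) ↔ t ∈ dGrp N Γ := by
  rw [← coe_dGrp]
  exact Iff.rfl

theorem dGrp_mono {Γ Γ' : Subgroup GQ} (h : Γ ≤ Γ') : dGrp N Γ ≤ dGrp N Γ' :=
  Subgroup.map_mono h

/-- conjugation: if `s₀` normalises `Γ` (in the sense `s₀⁻¹ τ s₀ ∈ Γ`), its image normalises the
image of `Γ`. -/
theorem dGrp_conj {Γ : Subgroup GQ} {s₀ : GQ} (h : ∀ τ ∈ Γ, s₀⁻¹ * τ * s₀ ∈ Γ) :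
    ∀ t ∈ dGrp N Γ, (dAut N s₀)⁻¹ * t * dAut N s₀ ∈ dGrp N Γ := by
  intro t ht
  obtain ⟨τ, hτ, rfl⟩ := mem_dGrp.mp ht
  refine mem_dGrp.mpr ⟨s₀⁻¹ * τ * s₀, h τ hτ, ?_⟩
  show arithmeticGalois (modularFunctionFieldFull N) (s₀⁻¹ * τ * s₀) = _
  rw [map_mul, map_mul, map_inv]

/-! ### fixed points -/

/-- fixed points on `ℚ̄`. -/
theorem dGrp_baseAut {Γ : Subgroup GQ} {c : Qb} (h : ∀ σ ∈ Γ, σ c = c) :
    ∀ t ∈ dGrp N Γ, SemilinearAut.baseAut t c = c := by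
  intro t ht
  obtain ⟨σ, hσ, rfl⟩ := mem_dGrp.mp ht
  exact h σ hσ

theorem dGrp_baseAut_iff {Γ : Subgroup GQ} {c : Qb} :
    (∀ t ∈ dGrp N Γ, SemilinearAut.baseAut t c = c) ↔ ∀ σ ∈ Γ, σ c = c :=
  ⟨fun h σ hσ => h _ (dAut_mem_dGrp hσ), dGrp_baseAut⟩

/-- fixed points on `F_N`. -/
theorem dGrp_smul_fun {Γ : Subgroup GQ} {f : modularFunctionFieldBar N}
    (h : ∀ σ ∈ Γ, dAut N σ • f = f) : ∀ t ∈ dGrp N Γ, t • f = f := by
  intro t ht
  obtain ⟨σ, hσ, rfl⟩ := mem_dGrp.mp ht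
  exact h σ hσ

/-- fixed points on `J₀(N)(ℚ̄) = Pic⁰(F_N)`. -/
theorem dGrp_smul_jZero {Γ : Subgroup GQ} {y : JZero N} (h : ∀ σ ∈ Γ, σ • y = y) :
    ∀ t ∈ dGrp N Γ, t • (y : Pic0 Qb (modularFunctionFieldBar N)) = y := by
  intro t ht
  obtain ⟨σ, hσ, rfl⟩ := mem_dGrp.mp ht
  exact h σ hσ

theorem dGrp_smul_jZero_iff {Γ : Subgroup GQ} {y : JZero N} :
    (∀ t ∈ dGrp N Γ, t • (y : Pic0 Qb (modularFunctionFieldBar N)) = y) ↔
      ∀ σ ∈ Γ, σ • y = y :=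
  ⟨fun h σ hσ => h _ (dAut_mem_dGrp hσ), dGrp_smul_jZero⟩

/-- the action of the image of `σ` on `J₀(N)(ℚ̄)` is the Galois action. -/
theorem dAut_smul_jZero (σ : GQ) (y : JZero N) :
    dAut N σ • (y : Pic0 Qb (modularFunctionFieldBar N)) = σ • y := rfl

/-- the cusp `∞` is fixed. -/
theorem dGrp_cuspPlace (Γ : Subgroup GQ) :
    ∀ t ∈ dGrp N Γ, t • Fermat.Agent.S17.Setup.cuspPlace N =
      Fermat.Agent.S17.Setup.cuspPlace N := by
  intro t ht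
  obtain ⟨σ, -, rfl⟩ := mem_dGrp.mp ht
  exact Fermat.Agent.S17.Setup.galPlace_cuspPlace N σ

end Grp

/-! ### the groups `H` and `H₁` -/

section Peu

variable (N : ℕ) (A : ValuationSubring Qb)

/-- `H`: the image of `peuStab A ζ α = {σ ∈ I_A | σ ζ = ζ, σ α = α}`. -/
def dH (ζ α : Qb) : Subgroup (SemilinearAut Qb (modularFunctionFieldBar N)) :=
  dGrp N (peuStab A ζ α)

/-- `H₁`: the image of `stabI A ζ = {σ ∈ I_A | σ ζ = ζ}`. -/
def dH1 (ζ : Qb) : Subgroup (SemilinearAut Qb (modularFunctionFieldBar N)) :=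
  dGrp N (stabI A ζ)

variable {N A}

theorem coe_dH (ζ α : Qb) :
    ((dH N A ζ α : Subgroup (SemilinearAut Qb (modularFunctionFieldBar N))) :
      Set (SemilinearAut Qb (modularFunctionFieldBar N))) =
      gauH N ((peuStab A ζ α : Subgroup GQ) : Set GQ) := coe_dGrp _

theorem coe_dH1 (ζ : Qb) :
    ((dH1 N A ζ : Subgroup (SemilinearAut Qb (modularFunctionFieldBar N))) :
      Set (SemilinearAut Qb (modularFunctionFieldBar N))) =
      gauH N ((stabI A ζ : Subgroup GQ) : Set GQ) := coe_dGrp _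

theorem dH_le_dH1 (ζ α : Qb) : dH N A ζ α ≤ dH1 N A ζ :=
  dGrp_mono inf_le_left

theorem dAut_mem_dH1 {ζ : Qb} {s₀ : GQ} (hs₀ : s₀ ∈ stabI A ζ) : dAut N s₀ ∈ dH1 N A ζ :=
  dAut_mem_dGrp hs₀

theorem dAut_mem_dH {ζ α : Qb} {σ : GQ} (hσ : σ ∈ A.inertiaSubgroupIn ℚ) (hζ : σ ζ = ζ)
    (hα : σ α = α) : dAut N σ ∈ dH N A ζ α :=
  dAut_mem_dGrp (mem_peuStab.mpr ⟨hσ, hζ, hα⟩)

/-- `s₀ ∈ I_A` with `s₀ ζ = ζ`, `s₀ α = ζ α` normalises `peuStab A ζ α`. -/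
theorem peuStab_conj {ζ α : Qb} {s₀ : GQ} (hs₀ : s₀ ∈ stabI A ζ) (hs₀α : s₀ α = ζ * α) :
    ∀ τ ∈ peuStab A ζ α, s₀⁻¹ * τ * s₀ ∈ peuStab A ζ α := by
  intro τ hτ
  obtain ⟨hτI, hτζ, hτα⟩ := mem_peuStab.mp hτ
  obtain ⟨hsI, hsζ⟩ := mem_stabI.mp hs₀
  have hinvζ : (s₀⁻¹ : GQ) ζ = ζ := by
    have h := congrArg (s₀⁻¹ : GQ) hsζ
    rw [← AlgEquiv.mul_apply, inv_mul_cancel, AlgEquiv.one_apply] at h
    exact h.symm
  have hinvα : (s₀⁻¹ : GQ) (ζ * α) = α := by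
    have h := congrArg (s₀⁻¹ : GQ) hs₀α
    rw [← AlgEquiv.mul_apply, inv_mul_cancel, AlgEquiv.one_apply] at h
    exact h.symm
  refine mem_peuStab.mpr ⟨mul_mem (mul_mem (inv_mem hsI) hτI) hsI, ?_, ?_⟩
  · rw [AlgEquiv.mul_apply, AlgEquiv.mul_apply, hsζ, hτζ, hinvζ]
  · rw [AlgEquiv.mul_apply, AlgEquiv.mul_apply, hs₀α, map_mul, hτζ, hτα, hinvα]

/-- **`hsH`**: the image `s` of `s₀` normalises `H`. -/
theorem dH_conj {ζ α : Qb} {s₀ : GQ} (hs₀ : s₀ ∈ stabI A ζ) (hs₀α : s₀ α = ζ * α) :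
    ∀ t ∈ dH N A ζ α, (dAut N s₀)⁻¹ * t * dAut N s₀ ∈ dH N A ζ α :=
  dGrp_conj (peuStab_conj hs₀ hs₀α)

/-- the same for the other direction of conjugation. -/
theorem peuStab_conj' {ζ α : Qb} {s₀ : GQ} (hs₀ : s₀ ∈ stabI A ζ) (hs₀α : s₀ α = ζ * α) :
    ∀ τ ∈ peuStab A ζ α, s₀ * τ * s₀⁻¹ ∈ peuStab A ζ α := by
  intro τ hτ
  obtain ⟨hτI, hτζ, hτα⟩ := mem_peuStab.mp hτ
  obtain ⟨hsI, hsζ⟩ := mem_stabI.mp hs₀
  have hinvζ : (s₀⁻¹ : GQ) ζ = ζ := by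
    have h := congrArg (s₀⁻¹ : GQ) hsζ
    rw [← AlgEquiv.mul_apply, inv_mul_cancel, AlgEquiv.one_apply] at h
    exact h.symm
  have hinvα : (s₀⁻¹ : GQ) α = ζ⁻¹ * α := by
    have h1 : s₀ (ζ⁻¹ * α) = α := by
      rw [map_mul, map_inv₀, hsζ, hs₀α, ← mul_assoc]
      by_cases hζ0 : ζ = 0
      · rw [hζ0, zero_mul] at hs₀α
        have hα0 : α = 0 := by
          have := (map_eq_zero_iff s₀ s₀.injective).mp hs₀α
          exact this
        rw [hα0, mul_zero]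
      · rw [inv_mul_cancel₀ hζ0, one_mul]
    have h := congrArg (s₀⁻¹ : GQ) h1
    rw [← AlgEquiv.mul_apply, inv_mul_cancel, AlgEquiv.one_apply] at h
    exact h.symm
  refine mem_peuStab.mpr ⟨mul_mem (mul_mem hsI hτI) (inv_mem hsI), ?_, ?_⟩
  · rw [AlgEquiv.mul_apply, AlgEquiv.mul_apply, hinvζ, hτζ, hsζ]
  · rw [AlgEquiv.mul_apply, AlgEquiv.mul_apply, hinvα, map_mul, map_inv₀, hτζ, hτα, map_mul,
      map_inv₀, hsζ, hs₀α, ← mul_assoc]
    by_cases hζ0 : ζ = 0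
    · rw [hζ0, zero_mul] at hs₀α
      have hα0 : α = 0 := (map_eq_zero_iff s₀ s₀.injective).mp hs₀α
      rw [hα0, mul_zero]
    · rw [inv_mul_cancel₀ hζ0, one_mul]

theorem dH_conj' {ζ α : Qb} {s₀ : GQ} (hs₀ : s₀ ∈ stabI A ζ) (hs₀α : s₀ α = ζ * α) :
    ∀ t ∈ dH N A ζ α, dAut N s₀ * t * (dAut N s₀)⁻¹ ∈ dH N A ζ α := by
  intro t ht
  obtain ⟨τ, hτ, rfl⟩ := mem_dGrp.mp ht
  refine mem_dGrp.mpr ⟨s₀ * τ * s₀⁻¹, peuStab_conj' hs₀ hs₀α τ hτ, ?_⟩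
  show arithmeticGalois (modularFunctionFieldFull N) (s₀ * τ * s₀⁻¹) = _
  rw [map_mul, map_mul, map_inv]

end Peu

/-! ### inertia is inertial for the modular seed -/

section Inertial

variable (D : ALData) [NeZero D.Q] [NeZero D.R] [NeZero (D.Q * D.R)]
  (A : ValuationSubring Qb) (hq : D.Q.Prime) (hA : A.LiesOverPrime D.Q) (hqR : ¬ D.Q ∣ D.R)
  [Fact D.Q.Prime] [CharP (IsLocalRing.ResidueField A) D.Q]
  [PerfectRing (IsLocalRing.ResidueField A) D.Q]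

/-- the image of an inertia element is in `kpΓ D A`. -/
theorem dAut_mem_kpΓ {σ : GQ} (hσ : σ ∈ A.inertiaSubgroupIn ℚ) :
    dAut (D.Q * D.R) σ ∈ kpΓ D A := ⟨σ, hσ, rfl⟩

theorem dGrp_subset_kpΓ {Γ : Subgroup GQ} (hΓ : Γ ≤ A.inertiaSubgroupIn ℚ) :
    ∀ t ∈ dGrp (D.Q * D.R) Γ, t ∈ kpΓ D A := by
  intro t ht
  obtain ⟨σ, hσ, rfl⟩ := mem_dGrp.mp ht
  exact dAut_mem_kpΓ D A (hΓ hσ)

/-- the image of an inertia element is inertial for the modular seed. -/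
theorem dAut_inertial (haux : AuxLevelOK D.Q D.R) {σ : GQ} (hσ : σ ∈ A.inertiaSubgroupIn ℚ) :
    haveI := Fermat.Agent.GaussInt.infinite_residue A
    (kpSeed D A hq hA hqR haux).nodalSetup.IsInertial (dAut (D.Q * D.R) σ) :=
  wu_inertial D A hq hA hqR haux _ (dAut_mem_kpΓ D A hσ)

/-- the image of a subgroup of the inertia group consists of inertial automorphisms. -/
theorem dGrp_inertial (haux : AuxLevelOK D.Q D.R) {Γ : Subgroup GQ}
    (hΓ : Γ ≤ A.inertiaSubgroupIn ℚ) :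
    haveI := Fermat.Agent.GaussInt.infinite_residue A
    ∀ t ∈ dGrp (D.Q * D.R) Γ, (kpSeed D A hq hA hqR haux).nodalSetup.IsInertial t :=
  fun t ht => wu_inertial D A hq hA hqR haux t (dGrp_subset_kpΓ D A hΓ t ht)

theorem dH_inertial (haux : AuxLevelOK D.Q D.R) (ζ α : Qb) :
    haveI := Fermat.Agent.GaussInt.infinite_residue A
    ∀ t ∈ dH (D.Q * D.R) A ζ α, (kpSeed D A hq hA hqR haux).nodalSetup.IsInertial t :=
  dGrp_inertial D A hq hA hqR haux (peuStab_le A ζ α)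

theorem dH1_inertial (haux : AuxLevelOK D.Q D.R) (ζ : Qb) :
    haveI := Fermat.Agent.GaussInt.infinite_residue A
    ∀ t ∈ dH1 (D.Q * D.R) A ζ, (kpSeed D A hq hA hqR haux).nodalSetup.IsInertial t :=
  dGrp_inertial D A hq hA hqR haux (stabI_le A ζ)

/-- `u = Δ(z) / Δ(qz)` is fixed. -/
theorem dGrp_fix_u {Γ : Subgroup GQ} (hΓ : Γ ≤ A.inertiaSubgroupIn ℚ) :
    ∀ t ∈ dGrp (D.Q * D.R) Γ, t • fwU D = fwU D :=
  fun t ht => wu_fix_u D A t (dGrp_subset_kpΓ D A hΓ t ht)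

end Inertial

end Fermat.Agent.R38
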