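/-
Row 38 (S44), block D (INT), seat SpDModTame (helper50), CORE.  Sub-architect: helper62
("block D WIRING v2").

The MODULAR instance of ABS-TAME (`PeuD/AbsTame.lean`) at the nodal seed `kpSeed D A ..` of level
`D.Q * D.R` (`p = D.Q ≥ 5` prime, `A | p`):  `H` = the image of `Γ₁ = {σ ∈ I_A | σ ζ = ζ}`
(`= stabI A ζ`) under the arithmetic Galois action, `π = ζ - 1`, `ϖ = p ^ 12`, `E = 12 (p - 1)`.

The two inputs which are still seats of their own are taken as HYPOTHESES, in the exact shapes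
of the consumers:

* `MtCoord D A hq hA hqR haux` (COORD-MOD, helper72 + ETA-LIFT, helper75): a coordinate `z`
  fixed by inertia, `CoordData (kpSeed ..) (fwU D) (fwPi D) p 12 z`;
* `MtBrk p A ζ` (BRK-TAME, helper85): `π = ζ - 1 ≠ 0`, `v π < 1`, the `Γ₁`-fixed constants have
  valuations in `v(π) ^ ℤ`, `v (p ^ 12) = v π ^ (12 (p - 1))`; PROVED: `mtBrk_of`.

Output `modTame_core`: for every `p`-torsion class `y` of `J₀(p R)` fixed by `Γ₁` there is a
Kummer generator `(E, g)` with `spSlopeInt D A hq hA hqR g`.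
-/
import Mathlib
import Fermat.Agent.R38.SpineDefs
import Fermat.Agent.Lib.BadRed.PeuD.AbsTame
import Fermat.Agent.Lib.BadRed.PeuD.ModU
import Fermat.Agent.Lib.BadRed.PeuD.GaussWire
import Fermat.Agent.Lib.BadRed.PeuD.H90Mod
import Fermat.Agent.Lib.BadRed.PeuD.BrkTame
import Fermat.Agent.Lib.FFL.FB.Defs

set_option autoImplicit false
set_option linter.style.haveILetI false
set_option linter.unusedSectionVars false
set_option linter.unusedVariables false
set_option synthInstance.maxHeartbeats 400000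
set_option maxHeartbeats 1000000

noncomputable section

namespace Fermat.Agent.R38

open ModularCurve AlgebraicCurve Fermat.Agent.F3 Fermat.Agent.F3G Fermat.Agent.F3I2
  Fermat.Agent.GaussInt Fermat.Agent.AtkinLehner Fermat.Agent.Deuring Fermat.Agent.RR
  Fermat.Agent.BadRed Fermat.Agent.EKp Fermat.Agent.PeuD

local notation "Qb" => AlgebraicClosure ℚ
local notation "GQ" => (AlgebraicClosure ℚ ≃ₐ[ℚ] AlgebraicClosure ℚ)

attribute [local instance] Fermat.Agent.BadRed.fwFintype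

/-! ### the two inputs -/

section Inputs

variable (D : ALData) [NeZero D.Q] [NeZero D.R] [NeZero (D.Q * D.R)]
  (A : ValuationSubring Qb) (hq : D.Q.Prime) (hA : A.LiesOverPrime D.Q) (hqR : ¬ D.Q ∣ D.R)
  [Fact D.Q.Prime] [CharP (IsLocalRing.ResidueField A) D.Q]
  [PerfectRing (IsLocalRing.ResidueField A) D.Q]

/-- **COORD-MOD**: a coordinate of the modular seed, fixed by the inertia group. -/
def MtCoord (haux : AuxLevelOK D.Q D.R) : Prop :=
  ∃ z : modularFunctionFieldBar (D.Q * D.R),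
    CoordData (kpSeed D A hq hA hqR haux) (fwU D) (fwPi D) (D.Q : Qb) 12 z ∧
      ∀ τ ∈ A.inertiaSubgroupIn ℚ,
        arithmeticGalois (modularFunctionFieldFull (D.Q * D.R)) τ • z = z

end Inputs

/-- **BRK-TAME**: `π = ζ - 1` is a uniformiser of `K₁ = K₀(ζ)`, and `v(p ^ 12) = v(π) ^ (12 (p-1))`. -/
def MtBrk (p : ℕ) (A : ValuationSubring Qb) (ζ : Qb) : Prop :=
  ζ - 1 ≠ 0 ∧ A.valuation (ζ - 1) < 1 ∧
    (∀ c : Qb, c ≠ 0 → (∀ σ ∈ Fermat.Agent.FFL.FB.stabI A ζ, σ c = c) →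
      ∃ n : ℤ, A.valuation c = A.valuation (ζ - 1) ^ n) ∧
    A.valuation ((p : Qb) ^ 12) = A.valuation (ζ - 1) ^ (12 * (p - 1))

/-- **BRK-TAME** holds (helper85, `PeuD/BrkTame.lean`). -/
theorem mtBrk_of {p : ℕ} {A : ValuationSubring Qb} {ζ : Qb} (hp : p.Prime)
    (hA : A.LiesOverPrime p) (hζ : IsPrimitiveRoot ζ p) : MtBrk p A ζ :=
  ⟨brkTame_pi_ne hp hζ, brkTame_pi_lt hp hA hζ,
    fun c hc hfix => brkTame_val_rat hp hA hζ hc hfix, brkTame_val_varpi hp hζ⟩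

/-! ### the group `H` -/

/-- the image of `Γ₁ = stabI A ζ` in the semilinear automorphisms of `F_N`. -/
def mtH (N : ℕ) (A : ValuationSubring Qb) (ζ : Qb) :
    Subgroup (SemilinearAut Qb (modularFunctionFieldBar N)) :=
  (Fermat.Agent.FFL.FB.stabI A ζ).map (arithmeticGalois (modularFunctionFieldFull N))

theorem mem_mtH {N : ℕ} {A : ValuationSubring Qb} {ζ : Qb}
    {t : SemilinearAut Qb (modularFunctionFieldBar N)} :
    t ∈ mtH N A ζ ↔ ∃ σ : GQ, (σ ∈ A.inertiaSubgroupIn ℚ ∧ σ ζ = ζ) ∧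
      arithmeticGalois (modularFunctionFieldFull N) σ = t := by
  unfold mtH
  rw [Subgroup.mem_map]
  rfl

theorem mtH_eq_gauH (N : ℕ) (A : ValuationSubring Qb) (ζ : Qb) :
    (mtH N A ζ : Set (SemilinearAut Qb (modularFunctionFieldBar N))) =
      gauH N (Fermat.Agent.FFL.FB.stabI A ζ : Set GQ) := by
  ext t
  constructor
  · intro ht
    obtain ⟨σ, hσ, rfl⟩ := mem_mtH.mp ht
    exact mem_gauH (show σ ∈ (Fermat.Agent.FFL.FB.stabI A ζ : Set GQ) from hσ)
  · rintro ⟨σ, hσ, rfl⟩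
    exact mem_mtH.mpr ⟨σ, hσ, rfl⟩

theorem mtH_gauH {N : ℕ} {A : ValuationSubring Qb} {ζ : Qb}
    {t : SemilinearAut Qb (modularFunctionFieldBar N)} (ht : t ∈ mtH N A ζ) :
    t ∈ gauH N (Fermat.Agent.FFL.FB.stabI A ζ : Set GQ) := by
  rw [← mtH_eq_gauH]
  exact ht

theorem gauH_mtH {N : ℕ} {A : ValuationSubring Qb} {ζ : Qb}
    {t : SemilinearAut Qb (modularFunctionFieldBar N)}
    (ht : t ∈ gauH N (Fermat.Agent.FFL.FB.stabI A ζ : Set GQ)) : t ∈ mtH N A ζ := by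
  have h : t ∈ (mtH N A ζ : Set (SemilinearAut Qb (modularFunctionFieldBar N))) := by
    rw [mtH_eq_gauH]
    exact ht
  exact h

/-! ### transport -/

/-- transport of a statement on a valuation subring along an equality. -/
theorem mt_transport {K : Type*} [Field K] {A B : ValuationSubring K} (h : B = A)
    (P : ValuationSubring K → Prop) (hP : P A) : P B := by
  subst h
  exact hP

/-! ### the core -/

section Core

variable (D : ALData) [NeZero D.Q] [NeZero D.R] [NeZero (D.Q * D.R)]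
  (A : ValuationSubring Qb) (hq : D.Q.Prime) (hA : A.LiesOverPrime D.Q) (hqR : ¬ D.Q ∣ D.R)
  [Fact D.Q.Prime] [CharP (IsLocalRing.ResidueField A) D.Q]
  [PerfectRing (IsLocalRing.ResidueField A) D.Q]

theorem mtH_mem_kpΓ {ζ : Qb} {t : SemilinearAut Qb (modularFunctionFieldBar (D.Q * D.R))}
    (ht : t ∈ mtH (D.Q * D.R) A ζ) : t ∈ kpΓ D A := by
  obtain ⟨σ, hσ, rfl⟩ := mem_mtH.mp ht
  exact ⟨σ, hσ.1, rfl⟩

/-- the modular nodal package behind `kpSeed`. -/
def mtM (haux : AuxLevelOK D.Q D.R) : ModularNodal D A :=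
  fwModularNodal D A hq hA hqR (kpS D A hq hA hqR) (isGaussSetup_gaussSetupBad D hq hqR A hA)
    (hasLattice_gaussSetupBad D hq hqR A hA) haux
    (fw_sep D A hq hA hqR _ (isGaussSetup_gaussSetupBad D hq hqR A hA) haux)

/-- **(G1)** for the modular seed and `H = mtH`, first valuation. -/
theorem mt_G1₁ (haux : AuxLevelOK D.Q D.R) (ζ : Qb) :
    ∀ f : modularFunctionFieldBar (D.Q * D.R), f ≠ 0 →
      (∀ t ∈ mtH (D.Q * D.R) A ζ, t • f = f) →
      ∃ c : Qb, (∀ t ∈ mtH (D.Q * D.R) A ζ, SemilinearAut.baseAut t c = c) ∧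
        (kpSeed D A hq hA hqR haux).S₁.red
          (f / algebraMap Qb (modularFunctionFieldBar (D.Q * D.R)) c) ≠ 0 := by
  intro f hf hfH
  obtain ⟨c, hcfix, hred⟩ := gau_G1₁ (mtM D A hq hA hqR haux) hq hA
    (Fermat.Agent.FFL.FB.stabI A ζ : Set GQ) f hf (fun t ht => hfH t (gauH_mtH ht))
  exact ⟨c, fun t ht => hcfix t (mtH_gauH ht), hred⟩

/-- **(G1)** for the modular seed and `H = mtH`, second valuation. -/
theorem mt_G1₂ (haux : AuxLevelOK D.Q D.R) (ζ : Qb) :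
    ∀ f : modularFunctionFieldBar (D.Q * D.R), f ≠ 0 →
      (∀ t ∈ mtH (D.Q * D.R) A ζ, t • f = f) →
      ∃ c : Qb, (∀ t ∈ mtH (D.Q * D.R) A ζ, SemilinearAut.baseAut t c = c) ∧
        (kpSeed D A hq hA hqR haux).S₂.red
          (f / algebraMap Qb (modularFunctionFieldBar (D.Q * D.R)) c) ≠ 0 := by
  intro f hf hfH
  obtain ⟨c, hcfix, hred⟩ := gau_G1₂ (mtM D A hq hA hqR haux) hq hA
    (Fermat.Agent.FFL.FB.stabI A ζ : Set GQ) f hf (fun t ht => hfH t (gauH_mtH ht))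
  exact ⟨c, fun t ht => hcfix t (mtH_gauH ht), hred⟩

/-- **SpDModTame, core**: from COORD-MOD and BRK-TAME. -/
theorem modTame_core (h5 : 5 ≤ D.Q) (haux : AuxLevelOK D.Q D.R)
    (hC : MtCoord D A hq hA hqR haux) (ζ : Qb) (hB : MtBrk D.Q A ζ)
    (y : JZero (D.Q * D.R)) (hpy : D.Q • y = 0)
    (hfix : ∀ σ ∈ A.inertiaSubgroupIn ℚ, σ ζ = ζ → σ • y = y) :
    ∃ E g, spIsKumGen D.Q y E g ∧ spSlopeInt D A hq hA hqR g := by
  haveI := infinite_residue A
  haveI : Nonempty (kpIota D A hq hA hqR) :=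
    fw_nonempty D A hq hA (kpS D A hq hA hqR) (isGaussSetup_gaussSetupBad D hq hqR A hA)
  obtain ⟨z, hz, hzfix⟩ := hC
  obtain ⟨hπ0, hπ1, hval, hϖπ⟩ := hB
  have hAeq : (kpSeed D A hq hA hqR haux).S₁.A = A := wu_A D A hq hA hqR haux
  have hπ1' : (kpSeed D A hq hA hqR haux).S₁.A.valuation (ζ - 1) < 1 :=
    mt_transport hAeq (fun B => B.valuation (ζ - 1) < 1) hπ1
  have hval' : ∀ c : Qb, c ≠ 0 →
      (∀ t ∈ mtH (D.Q * D.R) A ζ, SemilinearAut.baseAut t c = c) →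
      ∃ n : ℤ, (kpSeed D A hq hA hqR haux).S₁.A.valuation c =
        (kpSeed D A hq hA hqR haux).S₁.A.valuation (ζ - 1) ^ n := by
    intro c hc hcH
    refine mt_transport hAeq
      (fun B => ∃ n : ℤ, B.valuation c = B.valuation (ζ - 1) ^ n) (hval c hc ?_)
    intro σ hσ
    exact hcH _ (mem_mtH.mpr ⟨σ, hσ, rfl⟩)
  have hϖπ' : (kpSeed D A hq hA hqR haux).S₁.A.valuation (fwPi D) =
      (kpSeed D A hq hA hqR haux).S₁.A.valuation (ζ - 1) ^ (12 * (D.Q - 1)) :=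
    mt_transport hAeq
      (fun B => B.valuation (fwPi D) = B.valuation (ζ - 1) ^ (12 * (D.Q - 1))) hϖπ
  obtain ⟨E, g, hE, hg0, hgH, hgord, hslope⟩ :=
    abs_tame_fix (kpSeed D A hq hA hqR haux) D.Q hq hz (ε := kpEps D A hq hA hqR)
      (wu_eps₁ D A hq hA hqR haux) (wu_eps₂ D A hq hA hqR haux)
      (mtH (D.Q * D.R) A ζ)
      (fun t ht => wu_inertial D A hq hA hqR haux t (mtH_mem_kpΓ D A ht))
      (fun t ht => by
        obtain ⟨σ, hσ, rfl⟩ := mem_mtH.mp ht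
        exact hzfix σ hσ.1)
      hπ0 hπ1' hval' (E := 12 * (D.Q - 1)) (brkTame_not_dvd hq h5) hϖπ'
      (mt_G1₁ D A hq hA hqR haux ζ) (mt_G1₂ D A hq hA hqR haux ζ)
      (h90_mod_subgroup (modularFunctionFieldFull (D.Q * D.R)) (mtH (D.Q * D.R) A ζ)
        (h90_map_arith (modularFunctionFieldFull (D.Q * D.R)) (Fermat.Agent.FFL.FB.stabI A ζ)))
      (Fermat.Agent.S17.Setup.cuspPlace (D.Q * D.R))
      (fun t ht => kpΓ_fix_oo D A t (mtH_mem_kpΓ D A ht))
      y hpy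
      (fun t ht => by
        obtain ⟨σ, hσ, rfl⟩ := mem_mtH.mp ht
        exact hfix σ hσ.1 hσ.2)
  refine ⟨E, g, ⟨⟨hg0, fun v => (hgord v).symm⟩, hE⟩, ?_⟩
  rintro r ⟨c, hc0, hmem, hred, hr0⟩ i j
  have hred' : (kpSeed D A hq hA hqR haux).S₁.red
      (g / algebraMap Qb (modularFunctionFieldBar (D.Q * D.R)) c) = r := hred
  have hne : (kpSeed D A hq hA hqR haux).S₁.red
      (g / algebraMap Qb (modularFunctionFieldBar (D.Q * D.R)) c) ≠ 0 := by
    rw [hred']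
    exact hr0
  have h1 := hslope c hne i j
  rw [hred'] at h1
  exact h1

/-- **SpDModTame from COORD-MOD**: the only remaining input is the coordinate `z`. -/
theorem modTame_of_coord (h5 : 5 ≤ D.Q) (haux : AuxLevelOK D.Q D.R)
    (hC : MtCoord D A hq hA hqR haux) (ζ : Qb) (hζ : IsPrimitiveRoot ζ D.Q)
    (y : JZero (D.Q * D.R)) (hpy : D.Q • y = 0)
    (hfix : ∀ σ ∈ A.inertiaSubgroupIn ℚ, σ ζ = ζ → σ • y = y) :
    ∃ E g, spIsKumGen D.Q y E g ∧ spSlopeInt D A hq hA hqR g :=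
  modTame_core D A hq hA hqR h5 haux hC ζ (mtBrk_of hq hA hζ) y hpy hfix

end Core

end Fermat.Agent.R38
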