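/-
Row 38, block D (INT), junction SpDModWild (helper57; sub-architect helper62, "block D WIRING v2").

The MODULAR wild case: ABS-WILD (`abs_wild_fix`, `PeuD/AbsWild.lean`) at the modular nodal seed
`N := kpSeed D A hq hA hqR haux` of level `D.Q * D.R` (`p = D.Q ≥ 5`, `A | p`), for the peu
ramifiée Kummer layer `M = K₁(α)` (`PeuSetting p A ζ α z₀`):

* `H := jacΓ D (peuStab A ζ α)` (the image of `Gal(ℚ̄ / M)`),
  `s := arithmeticGalois s₀`, `s₀ ∈ stabI A ζ`, `s₀ α = ζ α`            (`exists_brk_of_peu`);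
* (BRK) : `brkW_wild_map`, `brkW_hsπ`, `brkW_hϖπ`, `brkW_not_dvd`          (BrkWire, helper97);
* (G1), (G2) : `gau_G1₁/₂`, `gau_G2₁/₂`                                 (GaussWire, helper64);
* (H90) : `h90_mod_subgroup`, `h90_map_arith`                            (H90Mod, helper97);
* (RES) : `jac_res`;  (JAC) : `jac_mod` at `Γ₀ := stabI A ζ`, `σ := s₀`   (JacMod, helper12);
* `u`-data : `wu_eps₁`, `wu_eps₂`                                        (ModU, helper19);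
* (RatLift) : `ratLift₁_of_seed`, `ratLift₂_of_seed`                     (RatSeed).

* (LiftFix) : `jacmf_seedLiftFix`                                       (JacModFix, helper12).

HYPOTHESIS left in `modWild_core` (modular input still in flight):
* `hz   : ∃ z, CoordData (kpSeed ..) (fwU D) (fwPi D) (D.Q : ℚ̄) 12 z ∧ ∀ t ∈ kpΓ D A, t • z = z`
                                                                       (COORD-MOD + ETA-LIFT).
-/
import Mathlib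
import Fermat.Agent.Lib.BadRed.PeuD.AbsWild
import Fermat.Agent.Lib.BadRed.PeuD.RatSeed
import Fermat.Agent.Lib.BadRed.PeuD.JacModFix
import Fermat.Agent.Lib.BadRed.PeuD.BrkWire
import Fermat.Agent.Lib.BadRed.PeuD.ModU
import Fermat.Agent.R38.SpineDefs

set_option autoImplicit false
set_option linter.style.haveILetI false
set_option linter.unusedSectionVars false
set_option linter.unusedVariables false
set_option synthInstance.maxHeartbeats 400000
set_option maxHeartbeats 1000000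

noncomputable section

namespace Fermat.Agent.R38

open IntermediateField ModularCurve AlgebraicCurve Fermat.Agent.F3 Fermat.Agent.F3G
  Fermat.Agent.GaussInt Fermat.Agent.AtkinLehner Fermat.Agent.Deuring Fermat.Agent.RR
  Fermat.Agent.BadRed Fermat.Agent.F3I2 Fermat.Agent.EKp Fermat.Agent.PeuD
  Fermat.Agent.FFL Fermat.Agent.FFL.FB

local notation "Qb" => AlgebraicClosure ℚ
local notation "GQb" => (AlgebraicClosure ℚ ≃ₐ[ℚ] AlgebraicClosure ℚ)

attribute [local instance] Fermat.Agent.BadRed.fwFintype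

/-! ### group theory of the Kummer layer -/

/-- `s₀⁻¹ x = x` if `s₀ x = x`. -/
theorem modWild_inv_apply {s₀ : GQb} {x : Qb} (h : s₀ x = x) : s₀⁻¹ x = x := by
  have h1 := congrArg (s₀⁻¹ : GQb) h
  rw [← AlgEquiv.mul_apply, inv_mul_cancel, AlgEquiv.one_apply] at h1
  exact h1.symm

/-- `s₀` normalises `Gal(ℚ̄ / M)`. -/
theorem modWild_conj {A : ValuationSubring Qb} {ζ α : Qb} {s₀ σ : GQb} (hs : s₀ ∈ stabI A ζ)
    (hsα : s₀ α = ζ * α) (hσ : σ ∈ peuStab A ζ α) : s₀⁻¹ * σ * s₀ ∈ peuStab A ζ α := by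
  obtain ⟨hσI, hσζ, hσα⟩ := mem_peuStab.1 hσ
  refine mem_peuStab.2 ⟨mul_mem (mul_mem (inv_mem hs.1) hσI) hs.1, ?_, ?_⟩
  · rw [AlgEquiv.mul_apply, AlgEquiv.mul_apply, hs.2, hσζ]
    exact modWild_inv_apply hs.2
  · rw [AlgEquiv.mul_apply, AlgEquiv.mul_apply, hsα, map_mul, hσζ, hσα, ← hsα,
      ← AlgEquiv.mul_apply, inv_mul_cancel, AlgEquiv.one_apply]

/-- an element of the inertia group preserves `A`. -/
theorem modWild_inertia_mem {A : ValuationSubring Qb} {σ : GQb}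
    (hσ : σ ∈ A.inertiaSubgroupIn ℚ) : ∀ a ∈ A, σ a ∈ A := by
  obtain ⟨τ, -, rfl⟩ := hσ
  intro a ha
  exact Fermat.Agent.FFL.FB.mem_of_decomp (P := A) τ.2 ha

/-- `p ∤ 12` for a prime `p ≥ 5`. -/
theorem modWild_not_dvd_twelve {p : ℕ} (hp : p.Prime) (h5 : 5 ≤ p) :
    ¬ (p : ℤ) ∣ ((12 : ℕ) : ℤ) := by
  rw [Int.natCast_dvd_natCast]
  intro h
  have hle : p ≤ 12 := Nat.le_of_dvd (by norm_num) h
  interval_cases p <;> revert h <;> revert hp <;> decide

variable (D : ALData) [NeZero D.Q] [NeZero D.R] [NeZero (D.Q * D.R)]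
  (A : ValuationSubring Qb) (hq : D.Q.Prime) (hA : A.LiesOverPrime D.Q) (hqR : ¬ D.Q ∣ D.R)
  [Fact D.Q.Prime] [CharP (IsLocalRing.ResidueField A) D.Q]
  [PerfectRing (IsLocalRing.ResidueField A) D.Q]

/-- **SpDModWild**, with the coordinate of the modular seed as a hypothesis. -/
theorem modWild_core (haux : AuxLevelOK D.Q D.R) (h5 : 5 ≤ D.Q)
    (hz : ∃ z : modularFunctionFieldBar (D.Q * D.R),
      CoordData (kpSeed D A hq hA hqR haux) (fwU D) (fwPi D) (D.Q : Qb) 12 z ∧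
        ∀ t ∈ kpΓ D A, t • z = z)
    {ζ α z₀ : Qb} (S : PeuSetting D.Q A ζ α z₀)
    (y : JZero (D.Q * D.R)) (hy : D.Q • y = 0) (hstab : ∀ σ ∈ peuStab A ζ α, σ • y = y)
    (hun : spUnip D.Q A y) :
    ∃ (E : Divisor.degZero (K := Qb) (F := FBar (D.Q * D.R))) (g : FBar (D.Q * D.R)),
      spIsKumGen D.Q y E g ∧ spSlopeInt D A hq hA hqR g := by
  classical
  haveI := infinite_residue A
  haveI : Nonempty (kpIota D A hq hA hqR) :=
    fw_nonempty D A hq hA (kpS D A hq hA hqR) (isGaussSetup_gaussSetupBad D hq hqR A hA)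
  haveI : PerfectField (IsLocalRing.ResidueField A) := PerfectRing.toPerfectField _ D.Q
  have hSA : (kpSeed D A hq hA hqR haux).S₁.A = A := wu_A D A hq hA hqR haux
  have hfix : SeedLiftFix (kpSeed D A hq hA hqR haux) (kpΓ D A) :=
    jacmf_seedLiftFix D A hq hA hqR haux
  obtain ⟨z, hcd, hzfix⟩ := hz
  obtain ⟨s₀, hs₀, hs₀α, -⟩ := exists_brk_of_peu S
  -- the groups
  set F₀ := modularFunctionFieldFull (D.Q * D.R) with hF₀
  set H : Subgroup (SemilinearAut Qb (modularFunctionFieldBar (D.Q * D.R))) :=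
    jacΓ D (peuStab A ζ α) with hHdef
  set s : SemilinearAut Qb (modularFunctionFieldBar (D.Q * D.R)) := arithmeticGalois F₀ s₀
    with hsdef
  have hHkp : ∀ t ∈ H, t ∈ kpΓ D A := by
    rintro _ ⟨σ, hσ, rfl⟩
    exact ⟨σ, peuStab_le A ζ α hσ, rfl⟩
  have hskp : s ∈ kpΓ D A := ⟨s₀, hs₀.1, rfl⟩
  have hH : ∀ t ∈ H, (kpSeed D A hq hA hqR haux).nodalSetup.IsInertial t := fun t ht =>
    kpΓ_isInertial D A hq hA hqR haux t (hHkp t ht)
  have hs : (kpSeed D A hq hA hqR haux).nodalSetup.IsInertial s :=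
    kpΓ_isInertial D A hq hA hqR haux s hskp
  have hsH : ∀ t ∈ H, s⁻¹ * t * s ∈ H := by
    rintro _ ⟨σ, hσ, rfl⟩
    refine ⟨s₀⁻¹ * σ * s₀, modWild_conj hs₀ hs₀α hσ, ?_⟩
    rw [map_mul, map_mul, map_inv]
  have hzH : ∀ t ∈ H, t • z = z := fun t ht => hzfix t (hHkp t ht)
  -- (BRK)
  have B := brkW_wild_map F₀ S hs₀ hs₀α
  have hπH : ∀ t ∈ H, SemilinearAut.baseAut t (peuUnif ζ α) = peuUnif ζ α := B.rat_π
  have hπ1 : (kpSeed D A hq hA hqR haux).S₁.A.valuation (peuUnif ζ α) < 1 := by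
    rw [hSA]; exact B.π_lt
  have hα₀u : (kpSeed D A hq hA hqR haux).S₁.A.valuation (-1 : Qb) = 1 := by
    rw [hSA]; exact B.α0_unit
  have hsπ : (SemilinearAut.baseAut s (peuUnif ζ α) -
      peuUnif ζ α * (1 + (-1) * peuUnif ζ α)) / peuUnif ζ α ^ 3 ∈
        (kpSeed D A hq hA hqR haux).S₁.A := by
    rw [hSA]; exact brkW_hsπ F₀ S hs₀ hs₀α
  have hA1 : ∀ c : Qb, c ∈ (kpSeed D A hq hA hqR haux).S₁.A →
      (∀ t ∈ H, SemilinearAut.baseAut t c = c) →
      (SemilinearAut.baseAut s c - c) / peuUnif ζ α ^ 2 ∈ (kpSeed D A hq hA hqR haux).S₁.A := by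
    rw [hSA]
    exact fun c hc hcH => B.depth_div hcH hc
  have hval : ∀ c : Qb, c ≠ 0 → (∀ t ∈ H, SemilinearAut.baseAut t c = c) →
      ∃ n : ℤ, (kpSeed D A hq hA hqR haux).S₁.A.valuation c =
        (kpSeed D A hq hA hqR haux).S₁.A.valuation (peuUnif ζ α) ^ n := by
    rw [hSA]
    exact fun c hc0 hcH => B.val_rat c hcH hc0
  have hϖπ : (kpSeed D A hq hA hqR haux).S₁.A.valuation (fwPi D) =
      (kpSeed D A hq hA hqR haux).S₁.A.valuation (peuUnif ζ α) ^ (D.Q * (12 * (D.Q - 1))) := by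
    rw [hSA]; exact brkW_hϖπ S
  -- (G1), (G2)
  have hfixΓ : ∀ {f : modularFunctionFieldBar (D.Q * D.R)}, (∀ t ∈ H, t • f = f) →
      ∀ t ∈ gauH (D.Q * D.R) (peuStab A ζ α : Set GQb), t • f = f := by
    rintro f hf _ ⟨σ, hσ, rfl⟩
    exact hf _ (mem_jacΓ D hσ)
  have hratΓ : ∀ {c : Qb}, (∀ t ∈ H, SemilinearAut.baseAut t c = c) →
      ∀ t ∈ gauH (D.Q * D.R) (peuStab A ζ α : Set GQb), SemilinearAut.baseAut t c = c := by
    rintro c hc _ ⟨σ, hσ, rfl⟩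
    exact hc _ (mem_jacΓ D hσ)
  have hG1₁ : ∀ f : modularFunctionFieldBar (D.Q * D.R), f ≠ 0 → (∀ t ∈ H, t • f = f) →
      ∃ c : Qb, (∀ t ∈ H, SemilinearAut.baseAut t c = c) ∧
        (kpSeed D A hq hA hqR haux).S₁.red
          (f / algebraMap Qb (modularFunctionFieldBar (D.Q * D.R)) c) ≠ 0 := by
    intro f hf0 hfH
    obtain ⟨c, hcfix, hcred⟩ := gau_G1₁ (jacM D A hq hA hqR haux) hq hA
      (peuStab A ζ α : Set GQb) f hf0 (hfixΓ hfH)
    refine ⟨c, ?_, hcred⟩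
    rintro _ ⟨σ, hσ, rfl⟩
    exact hcfix _ (mem_gauH hσ)
  have hG1₂ : ∀ f : modularFunctionFieldBar (D.Q * D.R), f ≠ 0 → (∀ t ∈ H, t • f = f) →
      ∃ c : Qb, (∀ t ∈ H, SemilinearAut.baseAut t c = c) ∧
        (kpSeed D A hq hA hqR haux).S₂.red
          (f / algebraMap Qb (modularFunctionFieldBar (D.Q * D.R)) c) ≠ 0 := by
    intro f hf0 hfH
    obtain ⟨c, hcfix, hcred⟩ := gau_G1₂ (jacM D A hq hA hqR haux) hq hA
      (peuStab A ζ α : Set GQb) f hf0 (hfixΓ hfH)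
    refine ⟨c, ?_, hcred⟩
    rintro _ ⟨σ, hσ, rfl⟩
    exact hcfix _ (mem_gauH hσ)
  have hsA : ∀ a ∈ A, s₀ a ∈ A := modWild_inertia_mem hs₀.1
  have hA1Γ : ∀ c : Qb, c ∈ (jacM D A hq hA hqR haux).N.S₁.A →
      (∀ t ∈ gauH (D.Q * D.R) (peuStab A ζ α : Set GQb), SemilinearAut.baseAut t c = c) →
      (SemilinearAut.baseAut (arithmeticGalois (modularFunctionFieldFull (D.Q * D.R)) s₀) c - c) /
        peuUnif ζ α ^ 2 ∈ (jacM D A hq hA hqR haux).N.S₁.A := by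
    intro c hc hcΓ
    refine hA1 c hc ?_
    rintro _ ⟨σ, hσ, rfl⟩
    exact hcΓ _ (mem_gauH hσ)
  have hG2₁ : ∀ f : modularFunctionFieldBar (D.Q * D.R),
      f ∈ (kpSeed D A hq hA hqR haux).S₁.Ov → (∀ t ∈ H, t • f = f) →
      (s • f - f) / algebraMap Qb (modularFunctionFieldBar (D.Q * D.R)) (peuUnif ζ α ^ 2) ∈
        (kpSeed D A hq hA hqR haux).S₁.Ov := fun f hf hfH =>
    gau_G2₁ (jacM D A hq hA hqR haux) hq hA (peuStab A ζ α : Set GQb) s₀ hsA (peuUnif ζ α) hA1Γ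
      f hf (hfixΓ hfH)
  have hG2₂ : ∀ f : modularFunctionFieldBar (D.Q * D.R),
      f ∈ (kpSeed D A hq hA hqR haux).S₂.Ov → (∀ t ∈ H, t • f = f) →
      (s • f - f) / algebraMap Qb (modularFunctionFieldBar (D.Q * D.R)) (peuUnif ζ α ^ 2) ∈
        (kpSeed D A hq hA hqR haux).S₂.Ov := fun f hf hfH =>
    gau_G2₂ (jacM D A hq hA hqR haux) hq hA (peuStab A ζ α : Set GQb) s₀ hsA (peuUnif ζ α) hA1Γ
      f hf (hfixΓ hfH)
  -- (H90), (RES)
  have hH90 := h90_mod_subgroup F₀ H (h90_map_arith F₀ (peuStab A ζ α))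
  have hres : ∀ γ : IsLocalRing.ResidueField A,
      ∃ (a : Qb) (ha : a ∈ (kpSeed D A hq hA hqR haux).S₁.A),
        (∀ t ∈ H, SemilinearAut.baseAut t a = a) ∧
          (kpSeed D A hq hA hqR haux).S₁.res ⟨a, ha⟩ = γ := by
    intro γ
    obtain ⟨a, ha, hafix, hares⟩ := jac_res D A hq hA hqR γ
    refine ⟨a, ha, ?_, hares⟩
    rintro _ ⟨σ, hσ, rfl⟩
    exact hafix σ (peuStab_le A ζ α hσ)
  -- (RatLift)
  have hsub : insert s (H : Set (SemilinearAut Qb (modularFunctionFieldBar (D.Q * D.R)))) ⊆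
      kpΓ D A := by
    intro t ht
    rcases Set.mem_insert_iff.mp ht with rfl | ht
    · exact hskp
    · exact hHkp t ht
  have hfix' := rat_seedLiftFix_mono hfix hsub
  -- (JAC)
  obtain ⟨Dl, hl, hDl, hl0, hldiv, hl₁, hl₂, hRT, hDlfix, -⟩ :=
    jac_mod D A hq hA hqR haux (stabI A ζ) (fun τ hτ => stabI_le A ζ hτ) hfix (σ := s₀) hs₀.1 hy
      (fun τ hτ => hun ζ S.hζ s₀ hs₀.1 τ hτ.1 hτ.2)
  have hDlH : ∀ t ∈ H, t • (Dl : Divisor Qb (FBar (D.Q * D.R))) = Dl := by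
    rintro _ ⟨σ, hσ, rfl⟩
    have hσ' : σ ∈ stabI A ζ := ⟨(mem_peuStab.1 hσ).1, (mem_peuStab.1 hσ).2.1⟩
    exact hDlfix _ (mem_jacΓ D hσ')
  have hDls : s • (Dl : Divisor Qb (FBar (D.Q * D.R))) = Dl := hDlfix _ (mem_jacΓ D hs₀)
  have hHy : ∀ t ∈ H, t • y = y := by
    rintro _ ⟨σ, hσ, rfl⟩
    exact hstab σ hσ
  have hsx : s • y - y = (1 : ℤ) • Pic0.mk Dl := by
    rw [one_zsmul]
    exact hDl.symm
  -- ABS-WILD
  obtain ⟨E, g, hEy, hg0, -, -, hgord, hslope⟩ :=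
    abs_wild_fix (kpSeed D A hq hA hqR haux) D.Q hcd (ε := kpEps D A hq hA hqR)
      (wu_eps₁ D A hq hA hqR haux) (wu_eps₂ D A hq hA hqR haux)
      (fun i => by
        have h1 := hcd.eps_eq i
        rw [wu_eps₁ D A hq hA hqR haux i] at h1
        have h2 : kpEps D A hq hA hqR i = 12 := by exact_mod_cast h1
        rw [h2]
        exact modWild_not_dvd_twelve hq h5)
      H s hH hs hsH hzH S.unif_ne_zero hπ1 hπH hα₀u hsπ hA1 hval (brkW_not_dvd hq h5) hϖπ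
      hG1₁ hG1₂ hG2₁ hG2₂ hH90 hres (ratLift₁_of_seed hfix') (ratLift₂_of_seed hfix')
      (Fermat.Agent.S17.Setup.cuspPlace (D.Q * D.R))
      (fun t ht => kpΓ_fix_oo D A t (hHkp t ht)) y hy hHy Dl hl hl0 hldiv hDlH hDls hl₁ hl₂ hRT
      1 hsx
  refine ⟨E, g, ⟨⟨hg0, fun v => (hgord v).symm⟩, hEy⟩, ?_⟩
  rintro r ⟨c, hc0, hcmem, hcred, hr0⟩ i j
  have h := hslope c (by rw [wu_S₁, hcred]; exact hr0) i j
  rw [wu_S₁, hcred] at h
  exact h

end Fermat.Agent.R38
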