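/-
Row 38, block D (INT), junction SpDModWild, FINAL (helper57; sub-architect helper62).

* `modWild_exists_z` : the coordinate of the modular seed (`4 ∣ D.R` or `9 ∣ D.R`): an
  inertia-fixed `z ∈ L(m D₀) ∩ O₁` with `z / p ∈ O₂` whose first reduction has a simple zero at
  every node (`liftPhi_exists_lift` + `jacmf_seedLiftFix` + `liftDisc₂` + `latLift_div_mem` +
  `NodalSeed.ord_nonneg_of_rmap_none`), i.e. `CoordData (kpSeed ..) (fwU D) (fwPi D) p 12 z`;
* `spDModWild : SpDModWild` : `modWild_core` with this coordinate.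
-/
import Mathlib
import Fermat.Agent.R38.D.ModWild
import Fermat.Agent.R38.D.Defs
import Fermat.Agent.Lib.BadRed.PeuD.LiftPhi
import Fermat.Agent.Lib.BadRed.PeuD.ZPole
import Fermat.Agent.Lib.BadRed.PeuD.LiftDisc
import Fermat.Agent.Lib.BadRed.PeuD.LatLift

set_option autoImplicit false
set_option linter.style.haveILetI false
set_option linter.unusedSectionVars false
set_option linter.unusedVariables false
set_option synthInstance.maxHeartbeats 400000
set_option maxHeartbeats 1000000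

noncomputable section

namespace Fermat.Agent.R38

open IntermediateField ModularCurve AlgebraicCurve Fermat.Agent.F3 Fermat.Agent.F3G
  Fermat.Agent.GaussInt Fermat.Agent.AtkinLehner Fermat.Agent.Deuring Fermat.Agent.RR
  Fermat.Agent.BadRed Fermat.Agent.F3I2 Fermat.Agent.EKp Fermat.Agent.PeuD
  Fermat.Agent.FFL Fermat.Agent.FFL.FB

local notation "Qb" => AlgebraicClosure ℚ
local notation "GQb" => (AlgebraicClosure ℚ ≃ₐ[ℚ] AlgebraicClosure ℚ)

attribute [local instance] Fermat.Agent.BadRed.fwFintype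

variable (D : ALData) [NeZero D.Q] [NeZero D.R] [NeZero (D.Q * D.R)]
  (A : ValuationSubring Qb) (hq : D.Q.Prime) (hA : A.LiesOverPrime D.Q) (hqR : ¬ D.Q ∣ D.R)
  [Fact D.Q.Prime] [CharP (IsLocalRing.ResidueField A) D.Q]
  [PerfectRing (IsLocalRing.ResidueField A) D.Q]

/-- **the coordinate of the modular seed**, fixed by the inertia group. -/
theorem modWild_exists_z (haux : AuxLevelOK D.Q D.R) (h4 : 4 ∣ D.R ∨ 9 ∣ D.R) :
    ∃ z : modularFunctionFieldBar (D.Q * D.R),
      CoordData (kpSeed D A hq hA hqR haux) (fwU D) (fwPi D) (D.Q : Qb) 12 z ∧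
        ∀ t ∈ kpΓ D A, t • z = z := by
  classical
  haveI := infinite_residue A
  obtain ⟨f, hf, hf1, hf2, hred0, -, hnode, hred2⟩ :=
    liftPhi_exists_lift (kpSeed D A hq hA hqR haux) (m := (kpSeed D A hq hA hqR haux).m₀) le_rfl
  obtain ⟨g, hg, hg1, hg2, e1, e2, hgfix⟩ :=
    jacmf_seedLiftFix D A hq hA hqR haux _ f hf hf1 hf2
  have hgred1 : (kpSeed D A hq hA hqR haux).S₁.red g ≠ 0 := by rw [e1]; exact hred0
  have hg0 : g ≠ 0 := (kpSeed D A hq hA hqR haux).S₁.ne_zero_of_red_ne_zero hgred1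
  have hgred2 : (kpSeed D A hq hA hqR haux).S₂.red g = 0 := by rw [e2]; exact hred2
  have hgI : ∀ τ ∈ A.inertiaSubgroupIn ℚ,
      arithmeticGalois (modularFunctionFieldFull (D.Q * D.R)) τ • g = g :=
    fun τ hτ => hgfix _ ⟨τ, hτ, rfl⟩
  obtain ⟨n, hn1, hn2⟩ := liftDisc₂ (jacM D A hq hA hqR haux) hq hA hg0 hgI
  have hQ0 : (D.Q : Qb) ≠ 0 := Nat.cast_ne_zero.mpr hq.ne_zero
  have hQA : (D.Q : Qb) ∈ (kpSeed D A hq hA hqR haux).S₂.A := natCast_mem _ _
  have hdiv : g / algebraMap Qb (modularFunctionFieldBar (D.Q * D.R)) (D.Q : Qb) ∈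
      (kpSeed D A hq hA hqR haux).S₂.Ov :=
    latLift_div_mem (kpSeed D A hq hA hqR haux).S₂ hQA hQ0 hn1 hn2 hg2 hgred2
  refine ⟨g, ⟨wu_annulus D A hq hA hqR haux, by norm_num, wu_val_pi D A hq hA hqR haux,
    wu_sum_eps D A hq hA hqR haux h4, hg1, hdiv,
    fun P hP => NodalSeed.ord_nonneg_of_rmap_none _ hg hP, fun i => ?_⟩, hgfix⟩
  rw [e1]
  exact hnode i

/-- **SpDModWild**: the wild case of (INT) at an auxiliary level. -/
theorem spDModWild : SpDModWild := by
  intro D _ _ _ A hq hA hqR _ _ _ h5 h4 ζ α z₀ S y hy hstab hun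
  have haux : AuxLevelOK D.Q D.R := AuxLevelOK.of_five_le h5
  exact modWild_core D A hq hA hqR haux h5
    (modWild_exists_z D A hq hA hqR haux (Or.inl h4)) S y hy hstab hun

end Fermat.Agent.R38
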