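/-
Row 38 (S44), block D (INT): **SpDModTame** (final wiring).

`spDModTame : SpDModTame` from `modTame_of_coord` (helper50, `R38/D/ModTameCore.lean`) and the
inertia-fixed coordinate `modWild_exists_z` of the modular seed (helper57,
`R38/D/ModWildFinal.lean`).
-/
import Mathlib
import Fermat.Agent.R38.D.ModTameCore
import Fermat.Agent.R38.D.ModWildFinal
import Fermat.Agent.R38.D.Defs

set_option autoImplicit false
set_option linter.style.haveILetI false
set_option linter.unusedSectionVars false
set_option linter.unusedVariables false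
set_option synthInstance.maxHeartbeats 400000
set_option maxHeartbeats 1000000

noncomputable section

namespace Fermat.Agent.R38

open ModularCurve AlgebraicCurve Fermat.Agent.F3 Fermat.Agent.F3G Fermat.Agent.F3I2
  Fermat.Agent.GaussInt Fermat.Agent.AtkinLehner Fermat.Agent.Deuring Fermat.Agent.RR
  Fermat.Agent.BadRed Fermat.Agent.EKp Fermat.Agent.PeuD

local notation "Qb" => AlgebraicClosure ℚ

attribute [local instance] Fermat.Agent.BadRed.fwFintype

/-- **SpDModTame**: the tame case of (INT) at an auxiliary level. -/
theorem spDModTame : SpDModTame := by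
  intro D _ _ _ A hq hA hqR _ _ _ h5 h4 ζ hζ y hy hfix
  have haux : AuxLevelOK D.Q D.R := AuxLevelOK.of_five_le h5
  obtain ⟨z, hz, hzfix⟩ := modWild_exists_z D A hq hA hqR haux (Or.inl h4)
  exact modTame_of_coord D A hq hA hqR h5 haux
    ⟨z, hz, fun τ hτ => hzfix _ ⟨τ, hτ, rfl⟩⟩ ζ hζ y hy hfix

end Fermat.Agent.R38
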