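/-
Row 38 (target S44), block D, seat PULL-CLS (helper11; sub-architect helper62):
**pull-back of classes along `F_{QR} ⊆ F_{QR'}`** (`D'.Q = D.Q`, `D.R ∣ D'.R`).

* `r38PullJ D D' hQ hR : JZero (D.Q * D.R) →+ JZero (D'.Q * D'.R)` (= `FF.pullJZero`);
* `r38PullJ_smul` : Galois-equivariance;
* `r38PullJ_isKumGen` : a Kummer generator `(E, g)` of `y` gives the Kummer generator
  `(pull E, incl g)` of `r38PullJ y`, `incl = IntermediateField.inclusion hle` (the inclusion used
  by `R38/P/LevelAL.lean`);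
* `r38PullJ_spKumStab`, `r38PullJ_spUnip`, `r38PullJ_nsmul_eq_zero` : the Galois conditions of the
  spine pull back.
The general versions (`N ∣ M`) are `r38_pull_*`.
-/
import Mathlib
import Fermat.Agent.Lib.FF.PullJZero
import Fermat.Agent.R38.SpineDefs
import Fermat.Agent.R38.P.LevelAL

set_option autoImplicit false
set_option linter.unusedVariables false
set_option linter.unusedSectionVars false
set_option linter.style.haveILetI false
set_option synthInstance.maxHeartbeats 400000

noncomputable section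

namespace Fermat.Agent.R38

open ModularCurve AlgebraicCurve Fermat.Agent.F3 Fermat.Agent.F3G Fermat.Agent.F3I2 Fermat.Agent.F3T
  Fermat.Agent.AtkinLehner Fermat.Agent.FF

local notation "Qb" => AlgebraicClosure ℚ
local notation "GQ" => (AlgebraicClosure ℚ ≃ₐ[ℚ] AlgebraicClosure ℚ)

section General

variable {N M : ℕ} [NeZero N] [NeZero M] (h : N ∣ M)

/-- the pull-back of a Kummer generator is a Kummer generator of the pull-back. -/
theorem r38_pull_isRootDiv (p : ℕ) {E : Divisor.degZero (K := Qb) (F := FBar N)} {g : FBar N}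
    (hg : IsRootDiv p g E) :
    haveI := hasPrincipalDivisors_bar M
    IsRootDiv p (inclBar h g)
      (degZeroPull (inclBar h) (inclBar_isIntegral h) (inclBar_fundId h) E) := by
  haveI := hasPrincipalDivisors_bar M
  refine ⟨fun h0 => hg.1 ((map_eq_zero_iff _ (inclBar h).injective).mp h0), fun w => ?_⟩
  rw [coe_degZeroPull, Divisor.pullbackAlong_apply,
    Place.ord_restrictAlong (inclBar h) (inclBar_isIntegral h) w g, ← hg.2]
  ring

/-- **PULL-CLS, Kummer generators** (general levels `N ∣ M`). -/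
theorem r38_pull_isKumGen (p : ℕ) {y : JZero N} {E : Divisor.degZero (K := Qb) (F := FBar N)}
    {g : FBar N} (hy : spIsKumGen p y E g) :
    ∃ E' : Divisor.degZero (K := Qb) (F := FBar M),
      spIsKumGen p (pullJZero h y) E' (inclBar h g) := by
  haveI := hasPrincipalDivisors_bar M
  refine ⟨degZeroPull (inclBar h) (inclBar_isIntegral h) (inclBar_fundId h) E,
    r38_pull_isRootDiv h p hy.1, ?_⟩
  rw [← hy.2]
  rfl

/-- the Kummer stabiliser condition pulls back. -/
theorem r38_pull_spKumStab (p : ℕ) (A : ValuationSubring Qb) {y : JZero N}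
    (hy : spKumStab p A y) : spKumStab p A (pullJZero h y) := by
  obtain ⟨a, ha1, ha2, ha3, ha4⟩ := hy
  refine ⟨a, ha1, ha2, ha3, fun α ζ hα hζ σ hσ hσζ hσα => ?_⟩
  rw [← pullJZero_smul, ha4 α ζ hα hζ σ hσ hσζ hσα]

/-- unipotence pulls back. -/
theorem r38_pull_spUnip (p : ℕ) (A : ValuationSubring Qb) {y : JZero N}
    (hy : spUnip p A y) : spUnip p A (pullJZero h y) := by
  intro ζ hζ σ hσ τ hτ hτζ
  rw [← pullJZero_smul, ← map_sub, ← pullJZero_smul, hy ζ hζ σ hσ τ hτ hτζ]

/-- torsion pulls back. -/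
theorem r38_pull_nsmul_eq_zero (p : ℕ) {y : JZero N} (hy : p • y = 0) :
    p • pullJZero h y = 0 := by
  rw [← map_nsmul, hy, map_zero]

end General

section AL

variable (D D' : ALData) [NeZero D.Q] [NeZero D.R] [NeZero (D.Q * D.R)]
  [NeZero D'.Q] [NeZero D'.R] [NeZero (D'.Q * D'.R)] (hQ : D'.Q = D.Q) (hR : D.R ∣ D'.R)

/-- **PULL-CLS**: the pull-back of classes from level `Q R` to level `Q R'`. -/
def r38PullJ : JZero (D.Q * D.R) →+ JZero (D'.Q * D'.R) :=
  pullJZero (r38_level_dvd D D' hQ hR)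

/-- the pull-back is Galois-equivariant. -/
theorem r38PullJ_smul (σ : GQ) (y : JZero (D.Q * D.R)) :
    r38PullJ D D' hQ hR (σ • y) = σ • r38PullJ D D' hQ hR y :=
  pullJZero_smul _ σ y

/-- the inclusion of `R38/P/LevelAL.lean` is `inclBar`. -/
theorem r38_inclusion_eq_inclBar
    (hle : modularFunctionFieldBar (D.Q * D.R) ≤ modularFunctionFieldBar (D'.Q * D'.R))
    (g : FBar (D.Q * D.R)) :
    IntermediateField.inclusion hle g = inclBar (r38_level_dvd D D' hQ hR) g := rfl

/-- **PULL-CLS, Kummer generators**: `(E, g)` Kummer generator of `y` ⟹ `(pull E, incl g)` is a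
Kummer generator of `r38PullJ y`. -/
theorem r38PullJ_isKumGen
    (hle : modularFunctionFieldBar (D.Q * D.R) ≤ modularFunctionFieldBar (D'.Q * D'.R))
    (p : ℕ) {y : JZero (D.Q * D.R)}
    {E : Divisor.degZero (K := Qb) (F := FBar (D.Q * D.R))} {g : FBar (D.Q * D.R)}
    (hy : spIsKumGen p y E g) :
    ∃ E' : Divisor.degZero (K := Qb) (F := FBar (D'.Q * D'.R)),
      spIsKumGen p (r38PullJ D D' hQ hR y) E' (IntermediateField.inclusion hle g) :=
  r38_pull_isKumGen (r38_level_dvd D D' hQ hR) p hy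

theorem r38PullJ_spKumStab (p : ℕ) (A : ValuationSubring Qb) {y : JZero (D.Q * D.R)}
    (hy : spKumStab p A y) : spKumStab p A (r38PullJ D D' hQ hR y) :=
  r38_pull_spKumStab _ p A hy

theorem r38PullJ_spUnip (p : ℕ) (A : ValuationSubring Qb) {y : JZero (D.Q * D.R)}
    (hy : spUnip p A y) : spUnip p A (r38PullJ D D' hQ hR y) :=
  r38_pull_spUnip _ p A hy

theorem r38PullJ_nsmul_eq_zero (p : ℕ) {y : JZero (D.Q * D.R)} (hy : p • y = 0) :
    p • r38PullJ D D' hQ hR y = 0 :=
  r38_pull_nsmul_eq_zero _ p hy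

end AL

end Fermat.Agent.R38
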