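/-
Row 38 (target S44), block D, junction PULL (helper11; AUX-DESC by helper83, helper96, helper42,
helper26, helper27): **`spDPull : SpDPull`**, i.e. `SpJDAux → SpJD`.

For `D : ALData` (`p = D.Q ≥ 5`, `p ∤ D.R`) the auxiliary datum `D' = r38AuxData D _` has
`D'.Q = D.Q` (definitionally) and `D'.R = 4 * D.R`.  A class `y` of level `p R` is pulled back to
level `4 p R` (`r38PullJ`, `R38/D/PullCls.lean`): torsion, `spKumStab`, `spUnip` and Kummer
generators pull back; (INT) at the level `D'` descends to the level `D` (`r38_spAuxDesc`).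
No `p`-newness is used.
-/
import Mathlib
import Fermat.Agent.R38.D.PullCls
import Fermat.Agent.R38.D.Defs
import Fermat.Agent.R38.P.AuxDescFinal

set_option autoImplicit false
set_option linter.unusedVariables false
set_option linter.unusedSectionVars false
set_option linter.style.haveILetI false
set_option synthInstance.maxHeartbeats 400000
set_option maxHeartbeats 1000000

noncomputable section

namespace Fermat.Agent.R38

open ModularCurve AlgebraicCurve Fermat.Agent.F3 Fermat.Agent.F3G Fermat.Agent.F3I2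
  Fermat.Agent.F3T Fermat.Agent.AtkinLehner Fermat.Agent.FF Fermat.Agent.BadRed Fermat.Agent.EKp

local notation "Qb" => AlgebraicClosure ℚ
local notation "GQ" => (AlgebraicClosure ℚ ≃ₐ[ℚ] AlgebraicClosure ℚ)

/-- the auxiliary Atkin–Lehner datum of level `Q · 4R` (`Q` unchanged, definitionally). -/
def r38AuxData (D : ALData) (h : Nat.Coprime D.Q (4 * D.R)) : ALData where
  Q := D.Q
  R := 4 * D.R
  a := Int.gcdA D.Q ((4 * D.R : ℕ) : ℤ)
  b := - Int.gcdB D.Q ((4 * D.R : ℕ) : ℤ)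
  hQ := D.hQ
  hR := Nat.mul_pos (by norm_num) D.hR
  hdet := by
    have hg : Int.gcd (D.Q : ℤ) ((4 * D.R : ℕ) : ℤ) = 1 := by
      rw [Int.gcd_natCast_natCast]
      exact h
    have hb := Int.gcd_eq_gcd_ab (D.Q : ℤ) ((4 * D.R : ℕ) : ℤ)
    rw [hg] at hb
    push_cast at hb ⊢
    linarith

@[simp] theorem r38AuxData_Q (D : ALData) (h : Nat.Coprime D.Q (4 * D.R)) :
    (r38AuxData D h).Q = D.Q := rfl

@[simp] theorem r38AuxData_R (D : ALData) (h : Nat.Coprime D.Q (4 * D.R)) :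
    (r38AuxData D h).R = 4 * D.R := rfl

/-- `p ≥ 5` prime, `p ∤ R` ⟹ `p` is prime to `4 R`. -/
theorem r38_coprime_four_mul {p R : ℕ} (hp : p.Prime) (h5 : 5 ≤ p) (hpR : ¬ p ∣ R) :
    Nat.Coprime p (4 * R) := by
  rw [Nat.Prime.coprime_iff_not_dvd hp]
  intro h
  rcases (Nat.Prime.dvd_mul hp).mp h with h4 | hR
  · have := Nat.le_of_dvd (by norm_num) h4
    omega
  · exact hpR hR

/-- **PULL** (block D of row 38): J-D at the auxiliary levels implies J-D. -/
theorem spDPull : SpDPull := by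
  intro haux D _ _ _ A hq hA hqR _ _ _ h5 S a y hnew hkum hunip E g hg
  have hcop : Nat.Coprime D.Q (4 * D.R) := r38_coprime_four_mul hq h5 hqR
  set D' : ALData := r38AuxData D hcop with hD'
  have hQ' : D'.Q = D.Q := rfl
  have hR' : D.R ∣ D'.R := Dvd.intro_left 4 rfl
  haveI : NeZero D'.Q := ⟨D'.hQ.ne'⟩
  haveI : NeZero D'.R := ⟨D'.hR.ne'⟩
  haveI : NeZero (D'.Q * D'.R) := ⟨(Nat.mul_pos D'.hQ D'.hR).ne'⟩
  have hq' : D'.Q.Prime := hq
  have hA' : A.LiesOverPrime D'.Q := hA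
  have hqR' : ¬ D'.Q ∣ D'.R := fun h => (Nat.Prime.coprime_iff_not_dvd hq).mp hcop h
  haveI : Fact D'.Q.Prime := ⟨hq'⟩
  haveI : CharP (IsLocalRing.ResidueField A) D'.Q := ‹CharP (IsLocalRing.ResidueField A) D.Q›
  haveI : PerfectRing (IsLocalRing.ResidueField A) D'.Q :=
    ‹PerfectRing (IsLocalRing.ResidueField A) D.Q›
  have hle : modularFunctionFieldBar (D.Q * D.R) ≤ modularFunctionFieldBar (D'.Q * D'.R) :=
    r38_fbar_le_of_dvd (r38_level_dvd D D' hQ' hR')
  obtain ⟨E', hg'⟩ := r38PullJ_isKumGen D D' hQ' hR' hle D.Q hg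
  have h1 := haux D' A hq' hA' hqR' h5 (Dvd.intro D.R rfl) (r38PullJ D D' hQ' hR' y)
    (r38PullJ_nsmul_eq_zero D D' hQ' hR' D.Q hnew.1) (r38PullJ_spKumStab D D' hQ' hR' D.Q A hkum)
    (r38PullJ_spUnip D D' hQ' hR' D.Q A hunip) E' _ hg'
  exact r38_spAuxDesc D A hq hA hqR D' hq' hA' hqR' h5 hQ' hR' hle g h1

end Fermat.Agent.R38
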