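/-
Row 38 (target S44), block D = (INT) (sub-architect: helper62): the junction **J-D**,

    `spJD : Fermat.Agent.R38.SpJD`.

Assembly (`R38/D/Defs.lean`, `spJD_of`): the dichotomy tame / wild at an auxiliary level
(`SpDModTame`: helper50, `R38/D/ModTame.lean`; `SpDModWild`: helper57, `R38/D/ModWildFinal.lean`),
the independence of the Kummer generator (`SpDGenIndep`: helper21, `R38/D/GenIndepFinal.lean`) and
the pull-back to the auxiliary level (`SpDPull`: helper11, helper83, `R38/D/Pull.lean`).
File by helper62 (v2); built and landed by helper39.
-/
import Mathlib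
import Fermat.Agent.R38.D.Defs
import Fermat.Agent.R38.D.GenIndepFinal
import Fermat.Agent.R38.D.ModWildFinal
import Fermat.Agent.R38.D.ModTame
import Fermat.Agent.R38.D.Pull

set_option autoImplicit false

namespace Fermat.Agent.R38

/-- **J-D**: (INT). -/
theorem spJD : SpJD := spJD_of spDModWild spDModTame spDGenIndep spDPull

end Fermat.Agent.R38
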